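import Mathlib

set_option autoImplicit false

namespace Fermat.Agent.S57

open scoped Pointwise

/-- Coordinates of elements of `I • ⊤` in a basis. -/
lemma mem_ideal_smul_top_iff_repr {Λ N ι : Type*} [CommRing Λ] [AddCommGroup N] [Module Λ N]
    (e : Module.Basis ι Λ N) (I : Ideal Λ) (x : N) :
    x ∈ I • (⊤ : Submodule Λ N) ↔ ∀ i, e.repr x i ∈ I := by
  rw [← e.span_eq, Submodule.mem_ideal_smul_span_iff_exists_sum]
  constructor
  · rintro ⟨a, ha, rfl⟩ i
    have : e.repr (a.sum fun i c => c • e i) = a := by
      have h := e.repr_linearCombination a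
      rwa [Finsupp.linearCombination_apply] at h
    rw [this]
    exact ha i
  · intro h
    refine ⟨e.repr x, h, ?_⟩
    have := e.linearCombination_repr x
    rwa [Finsupp.linearCombination_apply] at this

/-- Abstract endgame: if `N` is a free `Λ`-module, `ψ : Λ →+* R` is surjective,
`π : N →+ M` is a surjective `ψ`-semilinear map onto a nontrivial module with kernel `I • ⊤`
where `I ≤ ker ψ`, then `M` is free over `R`, faithful, and `ker ψ = I`. -/
theorem endgame_of_free {Λ R N M : Type} [CommRing Λ] [CommRing R] [AddCommGroup N] [Module Λ N]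
    [AddCommGroup M] [Module R M] [Nontrivial M] [Module.Free Λ N]
    (ψ : Λ →+* R) (hψ : Function.Surjective ψ) (I : Ideal Λ) (hI : I ≤ RingHom.ker ψ)
    (π : N →+ M) (hπ : ∀ (f : Λ) (x : N), π (f • x) = ψ f • π x)
    (hsurj : Function.Surjective π)
    (hker : ∀ x : N, π x = 0 ↔ x ∈ I • (⊤ : Submodule Λ N)) :
    Module.Free R M ∧ Module.annihilator R M = ⊥ ∧ RingHom.ker ψ = I := by
  classical
  let ι := Module.Free.ChooseBasisIndex Λ N
  let e : Module.Basis ι Λ N := Module.Free.chooseBasis Λ N
  have hmem : ∀ x : N, π x = 0 ↔ ∀ i, e.repr x i ∈ I := fun x =>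
    (hker x).trans (mem_ideal_smul_top_iff_repr e I x)
  -- `π` of a linear combination
  have hπsum : ∀ c : ι →₀ Λ, π (c.sum fun i a => a • e i) = c.sum fun i a => ψ a • π (e i) := by
    intro c
    simp only [Finsupp.sum, map_sum, hπ]
  -- a zero-preserving section of `ψ`
  let s : R → Λ := fun r => if r = 0 then 0 else Function.surjInv hψ r
  have hs0 : s 0 = 0 := by simp [s]
  have hs : ∀ r, ψ (s r) = r := by
    intro r
    by_cases hr : r = 0
    · simp [s, hr]
    · simp [s, hr, Function.surjInv_eq hψ r]
  let b : ι → M := fun i => π (e i)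
  -- linear independence
  have hli : LinearIndependent R b := by
    rw [linearIndependent_iff]
    intro l hl
    rw [Finsupp.linearCombination_apply] at hl
    let c : ι →₀ Λ := l.mapRange s hs0
    have hc : ∀ i, ψ (c i) = l i := fun i => by simp [c, hs]
    have h1 : π (c.sum fun i a => a • e i) = 0 := by
      rw [hπsum, ← hl]
      rw [Finsupp.sum_mapRange_index (fun i => by simp)]
      simp only [Finsupp.sum, hs]
      rfl
    have h2 := (hmem _).mp h1
    ext i
    have h3 : e.repr (c.sum fun i a => a • e i) = c := by
      have h := e.repr_linearCombination c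
      rwa [Finsupp.linearCombination_apply] at h
    have h4 : c i ∈ I := by
      have := h2 i
      rwa [h3] at this
    have h5 : ψ (c i) = 0 := hI h4
    rw [hc] at h5
    simpa using h5
  -- spanning
  have hsp : ⊤ ≤ Submodule.span R (Set.range b) := by
    rintro m -
    obtain ⟨x, rfl⟩ := hsurj m
    have hx : x = (e.repr x).sum fun i a => a • e i := by
      have := e.linearCombination_repr x
      rw [Finsupp.linearCombination_apply] at this
      exact this.symm
    rw [hx, hπsum]
    refine Submodule.sum_mem _ fun i _ => ?_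
    exact Submodule.smul_mem _ _ (Submodule.subset_span ⟨i, rfl⟩)
  have hfree : Module.Free R M := Module.Free.of_basis (Module.Basis.mk hli hsp)
  refine ⟨hfree, ?_, ?_⟩
  · exact Module.annihilator_eq_bot.mpr inferInstance
  · refine le_antisymm ?_ hI
    intro c hc
    rw [RingHom.mem_ker] at hc
    -- the index type is nonempty since `M` is nontrivial
    have hne : Nonempty ι := by
      by_contra hempty
      rw [not_nonempty_iff] at hempty
      obtain ⟨m, hm⟩ := exists_ne (0 : M)
      obtain ⟨x, rfl⟩ := hsurj m
      have : x = 0 := by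
        apply e.repr.injective
        ext i
        exact (hempty.false i).elim
      exact hm (by rw [this, map_zero])
    obtain ⟨i₀⟩ := hne
    have h1 : π (c • e i₀) = 0 := by rw [hπ, hc, zero_smul]
    have h2 := (hmem _).mp h1 i₀
    simpa using h2

end Fermat.Agent.S57
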