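import Mathlib

set_option autoImplicit false

namespace Fermat.Agent.S57

open RingTheory.Sequence IsLocalRing
open scoped Pointwise

section PowerSeriesStep

variable {A : Type*} [CommRing A]

/-- The additive equivalence `A⟦X⟧ / X ≃+ A` given by the constant coefficient. -/
noncomputable def quotXAddEquiv :
    QuotSMulTop (PowerSeries.X : PowerSeries A) (PowerSeries A) ≃+ A :=
  let f : PowerSeries A →ₗ[A] A :=
    { toFun := fun g => PowerSeries.constantCoeff g
      map_add' := fun g h => map_add _ g h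
      map_smul' := fun a g => by simp }
  have hsurj : Function.Surjective f := fun a =>
    ⟨PowerSeries.C a, show PowerSeries.constantCoeff (PowerSeries.C a) = a by simp⟩
  have hker : ((PowerSeries.X : PowerSeries A) • (⊤ : Submodule (PowerSeries A) (PowerSeries A))).restrictScalars A
      = LinearMap.ker f := by
    ext g
    rw [Submodule.restrictScalars_mem, LinearMap.mem_ker,
      Submodule.mem_smul_pointwise_iff_exists]
    constructor
    · rintro ⟨h, -, rfl⟩
      show PowerSeries.constantCoeff ((PowerSeries.X : PowerSeries A) • h) = 0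
      simp
    · intro hg
      have hg' : PowerSeries.constantCoeff g = 0 := hg
      obtain ⟨h, rfl⟩ := PowerSeries.X_dvd_iff.mpr hg'
      exact ⟨h, trivial, rfl⟩
  ((Submodule.Quotient.restrictScalarsEquiv A
      ((PowerSeries.X : PowerSeries A) • (⊤ : Submodule (PowerSeries A) (PowerSeries A)))).symm.trans
    ((Submodule.quotEquivOfEq _ _ hker).trans (f.quotKerEquivOfSurjective hsurj))).toAddEquiv

lemma quotXAddEquiv_mk (g : PowerSeries A) :
    quotXAddEquiv (Submodule.Quotient.mk g :
      QuotSMulTop (PowerSeries.X : PowerSeries A) (PowerSeries A)) = PowerSeries.constantCoeff g :=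
  rfl

lemma quotXAddEquiv_smul (f : PowerSeries A)
    (x : QuotSMulTop (PowerSeries.X : PowerSeries A) (PowerSeries A)) :
    quotXAddEquiv (f • x) = PowerSeries.constantCoeff f • quotXAddEquiv x := by
  induction x using Submodule.Quotient.induction_on with
  | H g =>
    rw [← Submodule.Quotient.mk_smul, quotXAddEquiv_mk, quotXAddEquiv_mk]
    simp

lemma isWeaklyRegular_X_cons (xs : List A) (h : IsWeaklyRegular A xs) :
    IsWeaklyRegular (PowerSeries A) (PowerSeries.X :: xs.map (PowerSeries.C : A →+* PowerSeries A)) := by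
  rw [isWeaklyRegular_cons_iff]
  refine ⟨?_, ?_⟩
  · intro a b hab
    exact PowerSeries.X_mul_cancel hab
  · refine (AddEquiv.isWeaklyRegular_congr (e := quotXAddEquiv (A := A)) ?_).mpr h
    rw [List.forall₂_map_left_iff]
    refine List.forall₂_same.mpr fun r _ x => ?_
    rw [quotXAddEquiv_smul]
    simp

lemma ofList_X_cons [IsLocalRing A] (xs : List A) (h : Ideal.ofList xs = maximalIdeal A) :
    Ideal.ofList (PowerSeries.X :: xs.map (PowerSeries.C : A →+* PowerSeries A)) =
      maximalIdeal (PowerSeries A) := by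
  apply le_antisymm
  · rw [Ideal.ofList, Ideal.span_le]
    intro f hf
    simp only [List.mem_cons, List.mem_map, Set.mem_ofPred_eq] at hf
    rw [SetLike.mem_coe, mem_maximalIdeal, mem_nonunits_iff, PowerSeries.isUnit_iff_constantCoeff]
    rcases hf with rfl | ⟨a, ha, rfl⟩
    · simp
    · have : a ∈ maximalIdeal A := by
        rw [← h]
        exact Ideal.subset_span ha
      simpa using this
  · intro f hf
    rw [mem_maximalIdeal, mem_nonunits_iff, PowerSeries.isUnit_iff_constantCoeff] at hf
    have hf0 : PowerSeries.constantCoeff f ∈ Ideal.ofList xs := by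
      rw [h]; exact hf
    rw [f.eq_X_mul_shift_add_const, Ideal.ofList_cons]
    refine Ideal.add_mem _ ?_ ?_
    · exact Ideal.mem_sup_left (Ideal.mul_mem_right _ _ (Ideal.subset_span rfl))
    · refine Ideal.mem_sup_right ?_
      rw [← Ideal.map_ofList]
      exact Ideal.mem_map_of_mem _ hf0

end PowerSeriesStep

section Transport

variable {A B : Type*} [CommRing A] [CommRing B]

lemma isWeaklyRegular_map_ringEquiv (σ : A ≃+* B) (xs : List A) (h : IsWeaklyRegular A xs) :
    IsWeaklyRegular B (xs.map σ) := by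
  refine (AddEquiv.isWeaklyRegular_congr (e := σ.toAddEquiv) ?_).mp h
  rw [List.forall₂_map_right_iff]
  exact List.forall₂_same.mpr fun r _ x => by simp

lemma ofList_map_ringEquiv [IsLocalRing A] [IsLocalRing B] (σ : A ≃+* B) (xs : List A)
    (h : Ideal.ofList xs = maximalIdeal A) :
    Ideal.ofList (xs.map σ) = maximalIdeal B := by
  have := Ideal.map_ofList (σ : A →+* B) xs
  rw [show (xs.map σ) = xs.map (σ : A →+* B) from rfl, ← this, h]
  ext y
  rw [Ideal.mem_map_iff_of_surjective (σ : A →+* B) σ.surjective]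
  constructor
  · rintro ⟨x, hx, rfl⟩
    rw [mem_maximalIdeal, mem_nonunits_iff] at hx ⊢
    simpa using hx
  · intro hy
    refine ⟨σ.symm y, ?_, by simp⟩
    rw [mem_maximalIdeal, mem_nonunits_iff] at hy ⊢
    simpa using hy

end Transport

theorem exists_regular_mvPowerSeries (𝒪 : Type) [CommRing 𝒪] [IsDomain 𝒪]
    [IsDiscreteValuationRing 𝒪] (r : ℕ) :
    ∃ xs : List (MvPowerSeries (Fin r) 𝒪),
      RingTheory.Sequence.IsWeaklyRegular (MvPowerSeries (Fin r) 𝒪) xs ∧
      Ideal.ofList xs = IsLocalRing.maximalIdeal (MvPowerSeries (Fin r) 𝒪) ∧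
      xs.length = r + 1 := by
  induction r with
  | zero =>
    obtain ⟨ϖ, hϖ⟩ := IsDiscreteValuationRing.exists_irreducible 𝒪
    let σ : 𝒪 ≃+* MvPowerSeries (Fin 0) 𝒪 := (MvPowerSeries.isEmptyEquiv (Fin 0) 𝒪).symm.toRingEquiv
    refine ⟨[ϖ].map σ, isWeaklyRegular_map_ringEquiv σ _ ?_, ofList_map_ringEquiv σ _ ?_, by simp⟩
    · rw [isWeaklyRegular_singleton_iff]
      exact IsSMulRegular.of_ne_zero hϖ.ne_zero
    · rw [Ideal.ofList_singleton]
      exact (hϖ.maximalIdeal_eq).symm
  | succ r ih =>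
    obtain ⟨xs, hreg, hmax, hlen⟩ := ih
    let σ : PowerSeries (MvPowerSeries (Fin r) 𝒪) ≃+* MvPowerSeries (Fin (r + 1)) 𝒪 :=
      (MvPowerSeries.finSuccEquiv 𝒪 r).symm.toRingEquiv
    refine ⟨(PowerSeries.X :: xs.map (PowerSeries.C : _ →+* PowerSeries (MvPowerSeries (Fin r) 𝒪))).map σ,
      isWeaklyRegular_map_ringEquiv σ _ (isWeaklyRegular_X_cons xs hreg),
      ofList_map_ringEquiv σ _ (ofList_X_cons xs hmax), by simp [hlen]⟩

/-- Variant of `exists_regular_mvPowerSeries` with `IsRegular` instead of `IsWeaklyRegular`. -/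
theorem exists_isRegular_mvPowerSeries (𝒪 : Type) [CommRing 𝒪] [IsDomain 𝒪]
    [IsDiscreteValuationRing 𝒪] (r : ℕ) :
    ∃ xs : List (MvPowerSeries (Fin r) 𝒪),
      RingTheory.Sequence.IsRegular (MvPowerSeries (Fin r) 𝒪) xs ∧
      Ideal.ofList xs = IsLocalRing.maximalIdeal (MvPowerSeries (Fin r) 𝒪) ∧
      xs.length = r + 1 := by
  obtain ⟨xs, hreg, hmax, hlen⟩ := exists_regular_mvPowerSeries 𝒪 r
  refine ⟨xs, ⟨hreg, ?_⟩, hmax, hlen⟩
  rw [hmax, smul_eq_mul, Ideal.mul_top]
  exact (Ideal.IsMaximal.ne_top (maximalIdeal.isMaximal _)).symm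

end Fermat.Agent.S57
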