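import Mathlib

set_option autoImplicit false

namespace Fermat.Agent.S57

open RingTheory.Sequence IsLocalRing CategoryTheory Abelian Pointwise

/-- Nakayama: if multiplication by an element of the maximal ideal is surjective on a
finitely generated module over a local ring, the module is trivial. -/
lemma subsingleton_of_smul_surjective {A : Type} [CommRing A] [IsLocalRing A]
    {E : Type*} [AddCommGroup E] [Module A E] [Module.Finite A E] {z : A}
    (hz : z ∈ maximalIdeal A) (h : ∀ e : E, ∃ e' : E, z • e' = e) : Subsingleton E := by
  have h1 : (⊤ : Submodule A E) ≤ maximalIdeal A • (⊤ : Submodule A E) := by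
    intro e _
    obtain ⟨e', rfl⟩ := h e
    exact Submodule.smul_mem_smul hz Submodule.mem_top
  have h2 := Submodule.eq_bot_of_le_smul_of_le_jacobson_bot (maximalIdeal A) ⊤
    (Module.Finite.fg_top) h1 (IsLocalRing.maximalIdeal_le_jacobson _)
  exact (Submodule.subsingleton_iff A).mp (subsingleton_of_bot_eq_top h2.symm)

lemma annihilator_le_annihilator_quotSMulTop {A : Type} [CommRing A]
    (L : Type) [AddCommGroup L] [Module A L] (z : A) :
    Ideal.span {z} ⊔ Module.annihilator A L ≤ Module.annihilator A (QuotSMulTop z L) := by
  refine sup_le ?_ ?_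
  · rw [Ideal.span_singleton_le_iff_mem]
    exact QuotSMulTop.mem_annihilator L z
  · intro a ha
    rw [Module.mem_annihilator] at ha ⊢
    intro y
    induction y using Submodule.Quotient.induction_on with | _ y
    rw [← Submodule.Quotient.mk_smul, ha y, Submodule.Quotient.mk_zero]

lemma subsingleton_ext_of_isWeaklyRegular {A : Type} [CommRing A] [IsLocalRing A]
    [IsNoetherianRing A] (N : ModuleCat.{0} A) [Module.Finite A N] (m : ℕ)
    (H : ∀ (L : ModuleCat.{0} A), Module.Finite A L →
       Module.support A L ⊆ PrimeSpectrum.zeroLocus (maximalIdeal A : Set A) →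
       ∀ i < m, Subsingleton (Ext L N i))
    (zs : List A) : ∀ (L : ModuleCat.{0} A) [Module.Finite A L],
      (∀ z ∈ zs, z ∈ maximalIdeal A) →
      maximalIdeal A ≤ Ideal.ofList zs ⊔ Module.annihilator A L →
      IsWeaklyRegular L zs → ∀ i, i + zs.length < m → Subsingleton (Ext L N i) := by
  induction zs with
  | nil =>
    intro L _ _ hle _ i hi
    apply H L inferInstance _ i (by simpa using hi)
    rw [Module.support_eq_zeroLocus]
    apply PrimeSpectrum.zeroLocus_anti_mono
    simpa using hle
  | cons z zs ih =>
    intro L _ hmem hle hreg i hi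
    rw [isWeaklyRegular_cons_iff] at hreg
    obtain ⟨hz, hreg'⟩ := hreg
    have hzm : z ∈ maximalIdeal A := hmem z List.mem_cons_self
    have hann : maximalIdeal A ≤
        Ideal.ofList zs ⊔ Module.annihilator A (ModuleCat.of A (QuotSMulTop z L)) := by
      refine hle.trans ?_
      rw [Ideal.ofList_cons, sup_comm (Ideal.span {z}), sup_assoc]
      exact sup_le_sup_left (annihilator_le_annihilator_quotSMulTop L z) _
    have ih' : Subsingleton (Ext (L.smulShortComplex z).X₃ N (1 + i)) := by
      rw [add_comm 1 i]
      exact ih (ModuleCat.of A (QuotSMulTop z L))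
        (fun w hw => hmem w (List.mem_cons_of_mem _ hw)) hann hreg' (i + 1)
        (by simp only [List.length_cons] at hi; omega)
    have hS := hz.smulShortComplex_shortExact
    apply subsingleton_of_smul_surjective hzm
    intro e
    obtain ⟨e', he'⟩ : ∃ e' : Ext L N i, (Ext.mk₀ (z • 𝟙 L)).comp e' (zero_add i) = e :=
      Ext.contravariant_sequence_exact₁ hS N e rfl (Subsingleton.elim _ _)
    refine ⟨e', ?_⟩
    rw [← he', Ext.mk₀_smul, Ext.smul_comp, Ext.mk₀_id_comp]

/-- Covariant long exact sequence step: `Ext` vanishing passes to the quotient by a regular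
element, with a shift. -/
lemma subsingleton_ext_quotSMulTop {A : Type} [CommRing A] (L P : ModuleCat.{0} A) {x : A}
    (hx : IsSMulRegular P x) (i : ℕ) (h0 : Subsingleton (Ext L P i))
    (h1 : Subsingleton (Ext L P (i + 1))) :
    Subsingleton (Ext L (ModuleCat.of A (QuotSMulTop x P)) i) := by
  have zero1 := AddCommGrpCat.isZero_of_iff_subsingleton.mpr h0
  have zero2 := AddCommGrpCat.isZero_of_iff_subsingleton.mpr h1
  exact AddCommGrpCat.subsingleton_of_isZero <| ShortComplex.Exact.isZero_of_both_zeros
    ((Ext.covariant_sequence_exact₃' L hx.smulShortComplex_shortExact) i (i + 1) rfl)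
    (zero1.eq_zero_of_src _) (zero2.eq_zero_of_tgt _)

lemma smul_eq_zero_of_mem_ofList_append_singleton {A : Type} [CommRing A]
    {P : Type} [AddCommGroup P] [Module A P] (pre : List A) (x : A)
    (hpre : ∀ a ∈ Ideal.ofList pre, ∀ p : P, a • p = 0) (p : P) (hp : x • p = 0)
    {a : A} (ha : a ∈ Ideal.ofList (pre ++ [x])) : a • p = 0 := by
  rw [Ideal.ofList_append, Ideal.ofList_singleton, Submodule.mem_sup] at ha
  obtain ⟨a₁, ha₁, a₂, ha₂, rfl⟩ := ha
  obtain ⟨c, rfl⟩ := Ideal.mem_span_singleton'.mp ha₂
  rw [add_smul, hpre a₁ ha₁ p, mul_smul, hp, smul_zero, add_zero]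

/-- If `Ext^i(L, P) = 0` for all finite length `L` and all `i < suf.length`, and `P` is killed
by `pre`, where `pre ++ suf` is a regular sequence generating the maximal ideal, then `suf` is a
weakly regular sequence on `P`. -/
lemma isWeaklyRegular_of_subsingleton_ext {A : Type} [CommRing A] [IsLocalRing A]
    [IsNoetherianRing A] (suf : List A) : ∀ (pre : List A), IsWeaklyRegular A (pre ++ suf) →
      Ideal.ofList (pre ++ suf) = maximalIdeal A →
      ∀ (P : Type) [AddCommGroup P] [Module A P] [Module.Finite A P],
      (∀ a ∈ Ideal.ofList pre, ∀ p : P, a • p = 0) →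
      (∀ (L : ModuleCat.{0} A), Module.Finite A L →
         Module.support A L ⊆ PrimeSpectrum.zeroLocus (maximalIdeal A : Set A) →
         ∀ i < suf.length, Subsingleton (Ext L (ModuleCat.of A P) i)) →
      IsWeaklyRegular P suf := by
  induction suf with
  | nil => intros; exact IsWeaklyRegular.nil _ _
  | cons x suf ih =>
    intro pre hreg hm P _ _ _ hpre H
    have hreg2 : IsWeaklyRegular A ((pre ++ [x]) ++ suf) := by
      rwa [List.append_assoc, List.singleton_append]
    have hm2 : Ideal.ofList ((pre ++ [x]) ++ suf) = maximalIdeal A := by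
      rwa [List.append_assoc, List.singleton_append]
    -- (i) `x` is `P`-regular
    have hx : IsSMulRegular P x := by
      have hregL : IsWeaklyRegular
          (A ⧸ (Ideal.ofList (pre ++ [x]) • (⊤ : Submodule A A))) suf :=
        ((isWeaklyRegular_append_iff A (pre ++ [x]) suf).mp hreg2).2
      have hmem : ∀ z ∈ suf, z ∈ maximalIdeal A := by
        intro z hz
        rw [← hm]
        exact Ideal.subset_span (List.mem_append_right _ (List.mem_cons_of_mem _ hz))
      have hle : maximalIdeal A ≤ Ideal.ofList suf ⊔ Module.annihilator A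
          (ModuleCat.of A (A ⧸ (Ideal.ofList (pre ++ [x]) • (⊤ : Submodule A A)))) := by
        rw [← hm2, Ideal.ofList_append, sup_comm]
        refine sup_le_sup_left ?_ _
        intro a ha
        rw [Module.mem_annihilator]
        intro y
        induction y using Submodule.Quotient.induction_on with | _ y
        rw [← Submodule.Quotient.mk_smul, Submodule.Quotient.mk_eq_zero]
        exact Submodule.smul_mem_smul ha Submodule.mem_top
      have hsub : Subsingleton (Ext
          (ModuleCat.of A (A ⧸ (Ideal.ofList (pre ++ [x]) • (⊤ : Submodule A A))))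
          (ModuleCat.of A P) 0) :=
        subsingleton_ext_of_isWeaklyRegular (ModuleCat.of A P) (suf.length + 1)
          (by simpa using H) suf
          (ModuleCat.of A (A ⧸ (Ideal.ofList (pre ++ [x]) • (⊤ : Submodule A A))))
          hmem hle hregL 0 (by omega)
      have hhom0 : Subsingleton
          (ModuleCat.of A (A ⧸ (Ideal.ofList (pre ++ [x]) • (⊤ : Submodule A A))) ⟶
            ModuleCat.of A P) := Ext.addEquiv₀.subsingleton_congr.mp hsub
      have hhom : Subsingleton
          ((A ⧸ (Ideal.ofList (pre ++ [x]) • (⊤ : Submodule A A))) →ₗ[A] P) :=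
        (ModuleCat.homAddEquiv (M := ModuleCat.of A
          (A ⧸ (Ideal.ofList (pre ++ [x]) • (⊤ : Submodule A A))))
          (N := ModuleCat.of A P)).symm.subsingleton
      rw [isSMulRegular_iff_right_eq_zero_of_smul]
      intro p hp
      have hker : Ideal.ofList (pre ++ [x]) • (⊤ : Submodule A A) ≤
          LinearMap.ker (LinearMap.toSpanSingleton A P p) := by
        rw [Submodule.smul_le]
        intro r hr n _
        rw [LinearMap.mem_ker, LinearMap.toSpanSingleton_apply, smul_eq_mul, mul_comm, mul_smul,
          smul_eq_zero_of_mem_ofList_append_singleton pre x hpre p hp hr, smul_zero]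
      have h0 := Subsingleton.elim
        ((Ideal.ofList (pre ++ [x]) • (⊤ : Submodule A A)).liftQ
          (LinearMap.toSpanSingleton A P p) hker) 0
      have h1 : ((Ideal.ofList (pre ++ [x]) • (⊤ : Submodule A A)).liftQ
          (LinearMap.toSpanSingleton A P p) hker) (Submodule.Quotient.mk (1 : A)) = 0 := by
        rw [h0]; rfl
      rw [Submodule.liftQ_apply, LinearMap.toSpanSingleton_apply, one_smul] at h1
      exact h1
    -- (ii) pass to the quotient
    have hpre' : ∀ a ∈ Ideal.ofList (pre ++ [x]), ∀ q : QuotSMulTop x P, a • q = 0 := by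
      intro a ha q
      refine smul_eq_zero_of_mem_ofList_append_singleton pre x ?_ q ?_ ha
      · intro b hb q'
        induction q' using Submodule.Quotient.induction_on with | _ q'
        rw [← Submodule.Quotient.mk_smul, hpre b hb q', Submodule.Quotient.mk_zero]
      · exact Module.mem_annihilator.mp (QuotSMulTop.mem_annihilator P x) q
    have H' : ∀ (L : ModuleCat.{0} A), Module.Finite A L →
        Module.support A L ⊆ PrimeSpectrum.zeroLocus (maximalIdeal A : Set A) →
        ∀ i < suf.length, Subsingleton (Ext L (ModuleCat.of A (QuotSMulTop x P)) i) := by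
      intro L hL hsupp i hi
      exact subsingleton_ext_quotSMulTop L (ModuleCat.of A P) hx i
        (H L hL hsupp i (by simp only [List.length_cons]; omega))
        (H L hL hsupp (i + 1) (by simp only [List.length_cons]; omega))
    exact (isWeaklyRegular_cons_iff P x suf).mpr
      ⟨hx, ih (pre ++ [x]) hreg2 hm2 (QuotSMulTop x P) hpre' H'⟩

/-- A finite module over a Noetherian local ring on which a generating sequence of the maximal
ideal is weakly regular is free. -/
lemma free_of_isWeaklyRegular_of_ofList_eq (n : ℕ) :
    ∀ (A : Type) [CommRing A] [IsLocalRing A] [IsNoetherianRing A] (xs : List A),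
      xs.length = n → Ideal.ofList xs = maximalIdeal A →
      ∀ (N : Type) [AddCommGroup N] [Module A N] [Module.Finite A N],
        IsWeaklyRegular N xs → Module.Free A N := by
  induction n with
  | zero =>
    intro A _ _ _ xs hlen hm N _ _ _ _
    have hxs : xs = [] := List.length_eq_zero_iff.mp hlen
    subst hxs
    rw [Ideal.ofList_nil] at hm
    have hF : IsField A := IsLocalRing.isField_iff_maximalIdeal_eq.mpr hm.symm
    let _ := hF.toField
    exact Module.Free.of_divisionRing A N
  | succ n ih =>
    intro A _ _ _ xs hlen hm N _ _ _ hreg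
    match xs, hlen, hm, hreg with
    | x :: xs', hlen, hm, hreg =>
      rw [isWeaklyRegular_cons_iff'] at hreg
      obtain ⟨hx, hreg'⟩ := hreg
      have hxm : x ∈ maximalIdeal A := by
        rw [← hm]
        exact Ideal.subset_span List.mem_cons_self
      have hne : Ideal.span {x} ≠ ⊤ := by
        intro htop
        have h1 : (1 : A) ∈ maximalIdeal A := by
          have : Ideal.span {x} ≤ maximalIdeal A := (Ideal.span_singleton_le_iff_mem _).mpr hxm
          exact this (htop ▸ Submodule.mem_top)
        exact (Ideal.ne_top_iff_one _).mp (IsLocalRing.maximalIdeal.isMaximal A).ne_top h1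
      have : Nontrivial (A ⧸ Ideal.span {x}) := Ideal.Quotient.nontrivial_iff.mpr hne
      have : IsLocalRing (A ⧸ Ideal.span {x}) :=
        IsLocalRing.of_surjective' _ Ideal.Quotient.mk_surjective
      have : Module.Finite (A ⧸ Ideal.span {x}) (QuotSMulTop x N) :=
        Module.Finite.of_restrictScalars_finite A _ _
      have hmB : Ideal.ofList (xs'.map (Ideal.Quotient.mk (Ideal.span {x}))) =
          maximalIdeal (A ⧸ Ideal.span {x}) := by
        rw [← IsLocalRing.map_maximalIdeal_of_surjective (Ideal.Quotient.mk (Ideal.span {x}))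
          Ideal.Quotient.mk_surjective, ← hm, Ideal.ofList_cons, Ideal.map_sup,
          Ideal.map_ofList, Ideal.map_quotient_self, bot_sup_eq]
      have hB := ih (A ⧸ Ideal.span {x}) (xs'.map (Ideal.Quotient.mk (Ideal.span {x})))
        (by simpa using hlen) hmB (QuotSMulTop x N) hreg'
      have := Module.finitePresentation_of_finite A N
      exact (Module.free_quotSMulTop_iff_free A N
        (IsLocalRing.maximalIdeal_le_jacobson _ hxm) hx).mp hB

/-- **Maximal Cohen–Macaulay modules over a regular local ring are free.**
Let `A` be a Noetherian local ring whose maximal ideal is generated by a (weakly) regular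
sequence `xs`, and let `N` be a finite `A`-module admitting a weakly regular sequence `ys`
in the maximal ideal of the same length. Then `N` is free. -/
theorem free_of_isWeaklyRegular {A : Type} [CommRing A] [IsLocalRing A] [IsNoetherianRing A]
    (xs : List A) (hxs : RingTheory.Sequence.IsWeaklyRegular A xs)
    (hm : Ideal.ofList xs = IsLocalRing.maximalIdeal A)
    (N : Type) [AddCommGroup N] [Module A N] [Module.Finite A N] (ys : List A)
    (hys : RingTheory.Sequence.IsWeaklyRegular N ys)
    (hmem : ∀ y ∈ ys, y ∈ IsLocalRing.maximalIdeal A) (hlen : ys.length = xs.length) :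
    Module.Free A N := by
  rcases subsingleton_or_nontrivial N with hN | hN
  · exact Module.Free.of_subsingleton A N
  · refine free_of_isWeaklyRegular_of_ofList_eq xs.length A xs rfl hm N ?_
    have hys' : IsRegular N ys := IsRegular.of_isWeaklyRegular_of_mem_maximalIdeal N hmem hys
    have hlt : maximalIdeal A • (⊤ : Submodule A N) < ⊤ := by
      refine lt_of_le_of_ne le_top ?_
      exact (Submodule.top_ne_ideal_smul_of_le_jacobson_annihilator
        (IsLocalRing.maximalIdeal_le_jacobson _)).symm
    refine isWeaklyRegular_of_subsingleton_ext xs [] (by simpa using hxs) (by simpa using hm) N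
      (by simp) ?_
    intro L hL hsupp i hi
    exact ModuleCat.subsingleton_ext_of_exists_isRegular (maximalIdeal A) L hsupp
      (ModuleCat.of A N) hlt ys hmem hys' i (hlen ▸ hi)

end Fermat.Agent.S57
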