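import Mathlib
import Fermat.Prelude.Def_Algebra_PatchingDatum

set_option autoImplicit false

namespace Fermat.Agent.S57

open RingTheory.Sequence IsLocalRing

section Level

variable {𝒪 : Type} [CommRing 𝒪] {r : ℕ} {R : Type} [CommRing R] [Algebra 𝒪 R]
  {M : Type} [AddCommGroup M] [Module R M]

/-- The `φ`-semilinear additive map `Λ^d → N`, `c ↦ ∑ φ (c i) • b i`. -/
noncomputable def levelMap (L : Algebra.PatchingLevel 𝒪 r R M ⊥) :
    (Fin L.d → MvPowerSeries (Fin r) 𝒪) →+ L.N where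
  toFun c := ∑ i, L.φ (c i) • L.b i
  map_zero' := by simp
  map_add' c c' := by simp [add_smul, Finset.sum_add_distrib]

lemma levelMap_apply (L : Algebra.PatchingLevel 𝒪 r R M ⊥)
    (c : Fin L.d → MvPowerSeries (Fin r) 𝒪) :
    levelMap L c = ∑ i, L.φ (c i) • L.b i := rfl

lemma levelMap_smul (L : Algebra.PatchingLevel 𝒪 r R M ⊥) (f : MvPowerSeries (Fin r) 𝒪)
    (c : Fin L.d → MvPowerSeries (Fin r) 𝒪) :
    levelMap L (f • c) = L.φ f • levelMap L c := by
  simp [levelMap_apply, Finset.smul_sum, mul_smul]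

lemma levelMap_bijective (L : Algebra.PatchingLevel 𝒪 r R M ⊥) :
    Function.Bijective (levelMap L) := by
  constructor
  · rw [injective_iff_map_eq_zero]
    intro c hc
    have h := (L.b_rel c).1 hc
    funext i
    simpa using h i
  · intro x
    obtain ⟨c, hc⟩ := L.b_span x
    exact ⟨c, hc.symm⟩

/-- The `φ`-semilinear additive equivalence `Λ^d ≃+ N`. -/
noncomputable def levelEquiv (L : Algebra.PatchingLevel 𝒪 r R M ⊥) :
    (Fin L.d → MvPowerSeries (Fin r) 𝒪) ≃+ L.N :=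
  AddEquiv.ofBijective (levelMap L) (levelMap_bijective L)

lemma levelEquiv_smul (L : Algebra.PatchingLevel 𝒪 r R M ⊥) (f : MvPowerSeries (Fin r) 𝒪)
    (c : Fin L.d → MvPowerSeries (Fin r) 𝒪) :
    levelEquiv L (f • c) = L.φ f • levelEquiv L c :=
  levelMap_smul L f c

lemma level_finite (L : Algebra.PatchingLevel 𝒪 r R M ⊥) :
    Module.Finite (MvPowerSeries (Fin r) 𝒪) L.N := by
  rw [Module.finite_def, Submodule.fg_def]
  refine ⟨Set.range L.b, Set.finite_range _, ?_⟩
  rw [eq_top_iff]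
  rintro x -
  obtain ⟨c, rfl⟩ := L.b_span x
  exact Submodule.sum_mem _ fun i _ =>
    Submodule.smul_mem _ _ (Submodule.subset_span (Set.mem_range_self i))

lemma level_isWeaklyRegular (L : Algebra.PatchingLevel 𝒪 r R M ⊥)
    (xs : List (MvPowerSeries (Fin r) 𝒪))
    (hxs : IsWeaklyRegular (MvPowerSeries (Fin r) 𝒪) xs) :
    IsWeaklyRegular L.N (xs.map L.φ) := by
  have h1 : IsWeaklyRegular (Fin L.d → MvPowerSeries (Fin r) 𝒪) xs :=
    ((TensorProduct.lid (MvPowerSeries (Fin r) 𝒪)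
      (Fin L.d → MvPowerSeries (Fin r) 𝒪)).isWeaklyRegular_congr xs).1
      (hxs.isWeaklyRegular_rTensor (M₂ := Fin L.d → MvPowerSeries (Fin r) 𝒪))
  refine (AddEquiv.isWeaklyRegular_congr (e := levelEquiv L) ?_).1 h1
  rw [List.forall₂_map_right_iff]
  exact List.forall₂_same.mpr fun f _ c => levelEquiv_smul L f c

end Level

section PhiLocal

variable {𝒪 : Type} [CommRing 𝒪] [IsLocalRing 𝒪] {r : ℕ}

/-- Any `𝒪`-algebra endomorphism of `𝒪⟦X₁,…,X_r⟧` maps the maximal ideal into itself. -/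
lemma algHom_mem_maximalIdeal
    (φ : MvPowerSeries (Fin r) 𝒪 →ₐ[𝒪] MvPowerSeries (Fin r) 𝒪)
    {x : MvPowerSeries (Fin r) 𝒪} (hx : x ∈ maximalIdeal (MvPowerSeries (Fin r) 𝒪)) :
    φ x ∈ maximalIdeal (MvPowerSeries (Fin r) 𝒪) := by
  rw [mem_maximalIdeal, mem_nonunits_iff, MvPowerSeries.isUnit_iff_constantCoeff] at hx ⊢
  intro hu
  set u0 : 𝒪 := MvPowerSeries.constantCoeff (φ x) with hu0
  -- `x - C u0` is a unit
  have h1 : IsUnit (x - MvPowerSeries.C u0) := by
    rw [MvPowerSeries.isUnit_iff_constantCoeff]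
    have : MvPowerSeries.constantCoeff (x - MvPowerSeries.C (σ := Fin r) u0)
        = MvPowerSeries.constantCoeff x - u0 := by simp
    rw [this]
    have hx' : MvPowerSeries.constantCoeff x ∈ maximalIdeal 𝒪 := hx
    by_contra hnu
    have hmem : MvPowerSeries.constantCoeff x - u0 ∈ maximalIdeal 𝒪 := hnu
    have : u0 ∈ maximalIdeal 𝒪 := by
      have := (maximalIdeal 𝒪).sub_mem hx' hmem
      simpa using this
    exact this hu
  have h2 : IsUnit (φ (x - MvPowerSeries.C u0)) := h1.map φ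
  rw [MvPowerSeries.isUnit_iff_constantCoeff] at h2
  have h3 : φ (MvPowerSeries.C u0) = MvPowerSeries.C u0 := by
    have := φ.commutes u0
    simpa [MvPowerSeries.algebraMap_apply] using this
  rw [map_sub, h3, map_sub, MvPowerSeries.constantCoeff_C, ← hu0, sub_self] at h2
  exact not_isUnit_zero h2

end PhiLocal

end Fermat.Agent.S57
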