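import Mathlib

/-!
# Freeness via projective dimension (hedge route for S57)

A finitely generated module `N` over a Noetherian local ring `A` whose maximal ideal is generated
by an `A`-regular sequence `xs`, admitting a weakly `N`-regular sequence `ys` of the same length
inside the maximal ideal such that `N ⧸ (ys) N` has finite length, is free.
-/

namespace Fermat.Agent.S57

open CategoryTheory Abelian IsLocalRing Module RingTheory.Sequence

section PdFree

variable {A : Type} [CommRing A] [IsLocalRing A] [IsNoetherianRing A]

theorem pdFree_projectiveDimension_residue (xs : List A)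
    (hxs : IsWeaklyRegular A xs) (hm : Ideal.ofList xs = maximalIdeal A) :
    projectiveDimension (ModuleCat.of A (A ⧸ maximalIdeal A)) = xs.length := by
  have hreg : IsRegular A xs := by
    refine ⟨hxs, ?_⟩
    rw [smul_eq_mul, Ideal.mul_top, hm]
    exact (Ideal.IsMaximal.ne_top inferInstance).symm
  have h := ModuleCat.projectiveDimension_quotient_eq_length.{0} xs hreg
  rw [← h]
  apply ModuleCat.projectiveDimension_eq_of_linearEquiv
  exact (Submodule.quotEquivOfEq _ _ hm.symm).trans (Shrink.linearEquiv A _).symm

theorem pdFree_hasProjectiveDimensionLT_of_isSimpleModule (xs : List A)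
    (hxs : IsWeaklyRegular A xs) (hm : Ideal.ofList xs = maximalIdeal A)
    (S : Type) [AddCommGroup S] [Module A S] [IsSimpleModule A S] :
    HasProjectiveDimensionLT (ModuleCat.of A S) (xs.length + 1) := by
  obtain ⟨I, hI, ⟨e⟩⟩ := (isSimpleModule_iff_quot_maximal (R := A) (M := S)).mp inferInstance
  have hI' : I = maximalIdeal A := IsLocalRing.eq_maximalIdeal hI
  subst hI'
  have h1 : projectiveDimension (ModuleCat.of A S) = xs.length := by
    rw [← pdFree_projectiveDimension_residue xs hxs hm]
    exact ModuleCat.projectiveDimension_eq_of_linearEquiv e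
  rw [← projectiveDimension_lt_iff, h1]
  exact_mod_cast Nat.lt_succ_self _

theorem pdFree_hasProjectiveDimensionLT_of_isFiniteLength (xs : List A)
    (hxs : IsWeaklyRegular A xs) (hm : Ideal.ofList xs = maximalIdeal A)
    (Q : Type) [AddCommGroup Q] [Module A Q] (h : IsFiniteLength A Q) :
    HasProjectiveDimensionLT (ModuleCat.of A Q) (xs.length + 1) := by
  induction h with
  | of_subsingleton =>
    rename_i M _ _ _
    have hz : Limits.IsZero (ModuleCat.of A M) := ModuleCat.isZero_of_subsingleton _
    have := hz.hasProjectiveDimensionLT_zero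
    exact hasProjectiveDimensionLT_of_ge _ 0 _ (Nat.zero_le _)
  | @of_simple_quotient M _ _ P _ hP ih =>
    have hsurj : Function.Surjective P.mkQ := P.mkQ_surjective
    have hS := LinearMap.shortExact_shortComplexKer hsurj
    have e : P ≃ₗ[A] LinearMap.ker P.mkQ := LinearEquiv.ofEq _ _ (Submodule.ker_mkQ P).symm
    have h1 : HasProjectiveDimensionLT (ModuleCat.of A (LinearMap.ker P.mkQ)) (xs.length + 1) :=
      hasProjectiveDimensionLT_of_iso e.toModuleIso _
    have h3 : HasProjectiveDimensionLT (ModuleCat.of A (M ⧸ P)) (xs.length + 1) :=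
      pdFree_hasProjectiveDimensionLT_of_isSimpleModule xs hxs hm _
    exact hS.hasProjectiveDimensionLT_X₂ _ h1 h3

theorem free_of_isWeaklyRegular_of_isFiniteLength (xs : List A)
    (hxs : RingTheory.Sequence.IsWeaklyRegular A xs)
    (hm : Ideal.ofList xs = IsLocalRing.maximalIdeal A)
    (N : Type) [AddCommGroup N] [Module A N] [Module.Finite A N] (ys : List A)
    (hys : RingTheory.Sequence.IsWeaklyRegular N ys)
    (hmem : ∀ y ∈ ys, y ∈ IsLocalRing.maximalIdeal A) (hlen : ys.length = xs.length)
    (hfl : IsFiniteLength A (N ⧸ (Ideal.ofList ys • ⊤ : Submodule A N))) :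
    Module.Free A N := by
  rcases subsingleton_or_nontrivial N with hN | hN
  · exact Module.Free.of_subsingleton A N
  have h1 := ModuleCat.projectiveDimension_quotient_eq_add_length_of_isWeaklyRegular
    (ModuleCat.of A N) ys hys hmem
  have h2 : HasProjectiveDimensionLT
      (ModuleCat.of A (N ⧸ (Ideal.ofList ys • ⊤ : Submodule A N))) (xs.length + 1) :=
    pdFree_hasProjectiveDimensionLT_of_isFiniteLength xs hxs hm _ hfl
  have h3 : projectiveDimension (ModuleCat.of A (N ⧸ (Ideal.ofList ys • ⊤ : Submodule A N)))
      ≤ xs.length := (projectiveDimension_le_iff _ _).mpr h2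
  rw [h1, hlen] at h3
  have h4 : projectiveDimension (ModuleCat.of A N) ≤ 0 := by
    have : projectiveDimension (ModuleCat.of A N) + (xs.length : ℕ)
        ≤ (0 : WithBot ℕ∞) + (xs.length : ℕ) := by simpa using h3
    exact ENat.WithBot.add_le_add_natCast_right_iff.mp this
  have h5 : HasProjectiveDimensionLE (ModuleCat.of A N) 0 :=
    (projectiveDimension_le_iff _ 0).mp (by simpa using h4)
  have h6 : CategoryTheory.Projective (ModuleCat.of A N) :=
    (projective_iff_hasProjectiveDimensionLE_zero _).mpr h5
  have h7 : Module.Projective A N := (IsProjective.iff_projective N).mpr h6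
  exact Module.free_of_flat_of_isLocalRing

end PdFree

end Fermat.Agent.S57
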